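/-
S29 / layer M / sub-layer M4b, piece `K4-ADD` (helper718): additivity of the Kummer relation.
-/
import Fermat.Agent.S29.M4b.Defs
import Fermat.Agent.S29.H882.GoodQ

set_option autoImplicit false

noncomputable section

open ModularCurve AlgebraicCurve CongruenceSubgroup UpperHalfPlane
open scoped MatrixGroups Manifold

namespace Fermat.Agent.S29.H718

open Fermat.Agent.S24 Fermat.Agent.S29 Fermat.Agent.S29.M4b

/-- `ζ_p ^ p = 1`. -/
theorem zetaP_pow_self (p : ℕ) [NeZero p] : zetaP p ^ p = 1 := by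
  unfold zetaP
  rw [← Complex.exp_nat_mul]
  have hp : (p : ℂ) ≠ 0 := Nat.cast_ne_zero.mpr (NeZero.ne p)
  rw [mul_div_cancel₀ _ hp]
  exact Complex.exp_two_pi_mul_I

/-- `ζ_p ^ (a + b).val = ζ_p ^ a.val * ζ_p ^ b.val` for `a b : ZMod p`. -/
theorem zetaP_pow_val_add (p : ℕ) [NeZero p] (a b : ZMod p) :
    zetaP p ^ (a + b).val = zetaP p ^ a.val * zetaP p ^ b.val := by
  rw [← pow_add, ZMod.val_add]
  conv_rhs => rw [← Nat.mod_add_div (a.val + b.val) p]
  rw [pow_add, pow_mul, zetaP_pow_self, one_pow, mul_one]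

end Fermat.Agent.S29.H718

namespace Fermat.Agent.S29.H718

open Fermat.Agent.S24 Fermat.Agent.S29 Fermat.Agent.S29.M4b

/-- A realised nonzero element is realised by a function which is not identically zero. -/
theorem exists_ne_zero_of_realises (N : ℕ) [NeZero N] {u : FF N} (hu : u ≠ 0) {G : ℍ → ℂ}
    (hG : Realises N u G) : ∃ τ : ℍ, G τ ≠ 0 := by
  by_contra hcon
  push Not at hcon
  have hG0 : G = 0 := funext hcon
  have hmer : H708.IsMerInf 1 G := H882.isMerInf_of_mem_goodRing hG.1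
  have h0 : H708.qexpFun 1 G = 0 := (H708.qexpFun_eq_zero_iff hmer).mpr hG0
  have h1 := hG.2
  rw [h0] at h1
  have h2 : ((u : FF N) : LaurentSeries Kbar) = 0 :=
    (coeffMap Deg457.iotaC).injective (by rw [← h1, map_zero])
  exact hu (Subtype.ext h2)

/-- Realisation is multiplicative. -/
theorem realises_mul (N : ℕ) [NeZero N] {u v : FF N} {G G' : ℍ → ℂ}
    (hG : Realises N u G) (hG' : Realises N v G') : Realises N (u * v) (G * G') := by
  refine ⟨(H648.goodRing N).mul_mem hG.1 hG'.1, ?_⟩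
  rw [H708.qexpFun_mul (H882.isMerInf_of_mem_goodRing hG.1)
    (H882.isMerInf_of_mem_goodRing hG'.1), hG.2, hG'.2, ← map_mul]
  rfl

/-- PIECE `K4-ADD`: additivity of the Kummer relation (product of the data). -/
theorem isKum_add (N : ℕ) [NeZero N] (p : ℕ) [NeZero p] {c c' : G0 N → ZMod p} {x x' : JZero N}
    (h : IsKum N p c x) (h' : IsKum N p c' x') : IsKum N p (c + c') (x + x') := by
  obtain ⟨f, t, U, ht, hx, hU, hR⟩ := h
  obtain ⟨f', t', U', ht', hx', hU', hR'⟩ := h'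
  have hpow : (fun τ => (U τ * U' τ) ^ p) = (fun τ => U τ ^ p) * (fun τ => U' τ ^ p) := by
    funext τ
    simp [mul_pow]
  have hprod : f * f' * (t * t') ^ p = (f * t ^ p) * (f' * t' ^ p) := by ring
  have hRR : Realises N (f * f' * (t * t') ^ p) (fun τ => (U τ * U' τ) ^ p) := by
    rw [hpow, hprod]
    exact realises_mul N hR hR'
  have hne : f * f' * (t * t') ^ p ≠ 0 :=
    mul_ne_zero (mul_ne_zero hx.ne_zero hx'.ne_zero) (pow_ne_zero _ (mul_ne_zero ht ht'))
  refine ⟨f * f', t * t', fun τ => U τ * U' τ, mul_ne_zero ht ht', hx.add hx', ?_, hRR⟩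
  refine ⟨hU.mdiff.mul hU'.mdiff, ?_, ?_, hRR.1⟩
  · obtain ⟨τ, hτ⟩ := exists_ne_zero_of_realises N hne hRR
    exact ⟨τ, fun h0 => hτ (by simp only [h0]; exact zero_pow (NeZero.ne p))⟩
  · intro γ τ
    show U ((γ : SL(2, ℤ)) • τ) * U' ((γ : SL(2, ℤ)) • τ) = _
    rw [hU.hasChar γ τ, hU'.hasChar γ τ, Pi.add_apply, zetaP_pow_val_add]
    ring

end Fermat.Agent.S29.H718
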