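/-
S29 / layer M / sub-layer M4b, piece `K4-INJ` (helper718): only the trivial character has Kummer
class `0`.
-/
import Fermat.Agent.S29.H718.KAdd
import Fermat.Agent.S29.H751.PthRootUHP
import Fermat.Agent.S18.H504.ConstF

set_option autoImplicit false

noncomputable section

open ModularCurve AlgebraicCurve CongruenceSubgroup UpperHalfPlane
open scoped MatrixGroups Manifold

namespace Fermat.Agent.S29.H718

open Fermat.Agent.S24 Fermat.Agent.S29 Fermat.Agent.S29.M4b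

/-- `ζ_p` is a primitive `p`-th root of unity. -/
theorem zetaP_isPrimitiveRoot (p : ℕ) [NeZero p] : IsPrimitiveRoot (zetaP p) p :=
  Complex.isPrimitiveRoot_exp p (NeZero.ne p)

/-- `ζ_p ^ a.val = 1` only for `a = 0`. -/
theorem eq_zero_of_zetaP_pow_val (p : ℕ) [NeZero p] (a : ZMod p)
    (h : zetaP p ^ a.val = 1) : a = 0 := by
  have h1 : p ∣ a.val := (zetaP_isPrimitiveRoot p).dvd_of_pow_eq_one _ h
  have h2 : a.val = 0 := Nat.eq_zero_of_dvd_of_lt h1 (ZMod.val_lt a)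
  exact (ZMod.val_eq_zero a).mp h2

/-- Every element of `FF N` is a quotient of two elements of `A_{ℚ̄}` (polynomials in the
`j(q^d)`, `d ∣ N`). -/
theorem exists_div_AK (N : ℕ) [NeZero N] (v : FF N) :
    ∃ r ∈ Deg457.AK Kbar N, ∃ s ∈ Deg457.AK Kbar N,
      ((v : FF N) : LaurentSeries Kbar) = r / s := by
  have hv := Deg457.laurentBaseChange_full_le (K := Kbar) N v.2
  rw [IntermediateField.mem_adjoin_iff_div] at hv
  exact hv

/-- Every element of `A_{ℚ̄}` is realised by a good function. -/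
theorem exists_good_of_mem_AK (N : ℕ) [NeZero N] {r : LaurentSeries Kbar}
    (hr : r ∈ Deg457.AK Kbar N) :
    ∃ R : ℍ → ℂ, R ∈ H648.goodRing N ∧ H708.HasQExp 1 R (coeffMap Deg457.iotaC r) :=
  H882.AK_le_goodQ N (Deg457.coeffMap_mem_AK Deg457.iotaC hr)

/-- If `U ^ p` realises a `p`-th power `v ^ p`, `v ≠ 0`, and `U` is holomorphic, then `U` is
`Γ₀(N)`-invariant at some point where it does not vanish. -/
theorem exists_invariant_point (N : ℕ) [NeZero N] (p : ℕ) [NeZero p] {v : FF N} (hv : v ≠ 0)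
    {U : ℍ → ℂ} (hU : MDifferentiable 𝓘(ℂ) 𝓘(ℂ) U)
    (hR : Realises N (v ^ p) (fun τ => U τ ^ p)) :
    ∃ τ₀ : ℍ, U τ₀ ≠ 0 ∧ ∀ γ ∈ Gamma0 N, U (γ • τ₀) = U τ₀ := by
  obtain ⟨r, hr, s, hs, hvrs⟩ := exists_div_AK N v
  have hv0 : ((v : FF N) : LaurentSeries Kbar) ≠ 0 := fun h => hv (Subtype.ext h)
  have hs0 : s ≠ 0 := by
    rintro rfl
    rw [div_zero] at hvrs
    exact hv0 hvrs
  have hr0 : r ≠ 0 := by
    rintro rfl
    rw [zero_div] at hvrs
    exact hv0 hvrs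
  obtain ⟨R, hRg, hRq⟩ := exists_good_of_mem_AK N hr
  obtain ⟨S, hSg, hSq⟩ := exists_good_of_mem_AK N hs
  -- `(U * S) ^ p` and `R ^ p` have the same `q`-expansion
  have hUq : H708.HasQExp 1 (fun τ => U τ ^ p)
      (coeffMap Deg457.iotaC (((v ^ p : FF N) : FF N) : LaurentSeries Kbar)) :=
    ⟨H882.isMerInf_of_mem_goodRing hR.1, hR.2⟩
  have h1 : H708.HasQExp 1 ((fun τ => U τ ^ p) * S ^ p)
      (coeffMap Deg457.iotaC (((v ^ p : FF N) : FF N) : LaurentSeries Kbar)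
        * coeffMap Deg457.iotaC s ^ p) := hUq.mul (hSq.pow p)
  have h2 : H708.HasQExp 1 (R ^ p) (coeffMap Deg457.iotaC r ^ p) := hRq.pow p
  have hser : coeffMap Deg457.iotaC (((v ^ p : FF N) : FF N) : LaurentSeries Kbar)
        * coeffMap Deg457.iotaC s ^ p = coeffMap Deg457.iotaC r ^ p := by
    rw [← map_pow, ← map_pow, ← map_mul]
    congr 1
    have : (((v ^ p : FF N) : FF N) : LaurentSeries Kbar)
        = ((v : FF N) : LaurentSeries Kbar) ^ p := rfl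
    rw [this, hvrs, div_pow, div_mul_cancel₀ _ (pow_ne_zero p hs0)]
  rw [hser] at h1
  have hfun : (fun τ => U τ ^ p) * S ^ p = R ^ p := h1.eq_of_eq h2
  -- a point where `R` does not vanish
  have hR0 : R ≠ 0 := by
    intro h0
    have := (hRq.eq_zero_iff).mpr h0
    exact hr0 ((coeffMap Deg457.iotaC).injective (by rw [this, map_zero]))
  obtain ⟨τ₀, hτ₀⟩ : ∃ τ₀ : ℍ, R τ₀ ≠ 0 := by
    by_contra hcon
    push Not at hcon
    exact hR0 (funext hcon)
  have hpt : ∀ τ : ℍ, (U τ * S τ) ^ p = R τ ^ p := by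
    intro τ
    have := congrFun hfun τ
    simpa [mul_pow] using this
  have hUS0 : U τ₀ * S τ₀ ≠ 0 := by
    intro h0
    have := hpt τ₀
    rw [h0, zero_pow (NeZero.ne p)] at this
    exact pow_ne_zero p hτ₀ this.symm
  set ξ : ℂ := U τ₀ * S τ₀ / R τ₀ with hξ
  have hξp : ξ ^ p = 1 := by
    rw [hξ, div_pow, hpt τ₀, div_self (pow_ne_zero p hτ₀)]
  have hAB : (fun τ => U τ * S τ) = (fun τ => ξ * R τ) := by
    refine H751.eq_of_pow_eq_UHP (hU.mul hSg.1) ((mdifferentiable_const (c := ξ)).mul hRg.1)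
      (NeZero.ne p) (fun τ => ?_) (τ₀ := τ₀) ?_ hUS0
    · rw [hpt τ, mul_pow, hξp, one_mul]
    · show U τ₀ * S τ₀ = ξ * R τ₀
      rw [hξ, div_mul_cancel₀ _ hτ₀]
  refine ⟨τ₀, left_ne_zero_of_mul hUS0, fun γ hγ => ?_⟩
  have e1 : U (γ • τ₀) * S (γ • τ₀) = ξ * R (γ • τ₀) := congrFun hAB (γ • τ₀)
  have e2 : U τ₀ * S τ₀ = ξ * R τ₀ := congrFun hAB τ₀
  rw [hSg.2.1 γ hγ τ₀, hRg.2.1 γ hγ τ₀, ← e2] at e1
  exact mul_right_cancel₀ (right_ne_zero_of_mul hUS0) e1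

/-- PIECE `K4-INJ`: only the trivial character has Kummer class `0`. -/
theorem isKum_zero_right (N : ℕ) [NeZero N] (p : ℕ) [NeZero p] {c : G0 N → ZMod p}
    (h : IsKum N p c (0 : JZero N)) : c = 0 := by
  obtain ⟨f, t, U, ht, hx, hU, hR⟩ := h
  have hp0 : (p : ℤ) ≠ 0 := Int.natCast_ne_zero.mpr (NeZero.ne p)
  obtain ⟨g, hg, hfg⟩ := (hx.eq_zero_iff hp0).mp rfl
  have hf : f ≠ 0 := hx.ne_zero
  -- `f / g ^ p` is a constant
  have hgp : g ^ p ≠ 0 := pow_ne_zero p hg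
  have hu0 : f * (g ^ p)⁻¹ ≠ 0 := mul_ne_zero hf (inv_ne_zero hgp)
  have hord : ∀ w : Place Kbar (FF N), w.ord (f * (g ^ p)⁻¹) = 0 := by
    intro w
    rw [Place.ord_mul w hf (inv_ne_zero hgp), Place.ord_inv, hfg w, ← zpow_natCast g p,
      Place.ord_zpow]
    ring
  obtain ⟨a, ha⟩ := Fermat.Agent.S18.H504.constOfOrdZero_modularFunctionFieldBar N _ hu0 hord
  obtain ⟨b, hb⟩ := IsAlgClosed.exists_pow_nat_eq a (Nat.pos_of_ne_zero (NeZero.ne p))
  have hb0 : b ≠ 0 := by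
    rintro rfl
    rw [zero_pow (NeZero.ne p)] at hb
    rw [← hb, map_zero] at ha
    exact hu0 ha
  set v : FF N := algebraMap Kbar (FF N) b * g * t with hv
  have hv0 : v ≠ 0 :=
    mul_ne_zero (mul_ne_zero ((map_ne_zero _).mpr hb0) hg) ht
  have hvp : v ^ p = f * t ^ p := by
    have h1 : f = algebraMap Kbar (FF N) a * g ^ p := by
      rw [← ha, mul_assoc, inv_mul_cancel₀ hgp, mul_one]
    rw [hv, mul_pow, mul_pow, ← map_pow, hb, ← h1]
  rw [← hvp] at hR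
  obtain ⟨τ₀, hτ₀, hinv⟩ := exists_invariant_point N p hv0 hU.mdiff hR
  funext γ
  apply eq_zero_of_zetaP_pow_val
  have h1 := hU.hasChar γ τ₀
  have h2 := hinv (γ : SL(2, ℤ)) γ.2
  rw [h2] at h1
  have h3 : (zetaP p ^ (c γ).val - 1) * U τ₀ = 0 := by
    rw [sub_mul, one_mul, ← h1, sub_self]
  rcases mul_eq_zero.mp h3 with h4 | h4
  · exact sub_eq_zero.mp h4
  · exact absurd h4 hτ₀

end Fermat.Agent.S29.H718
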